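import Mathlib
import Fermat.Agent.PT.Loc.Iface

/-!
# W3-PT / PT-LOC, block MC: the index in a cyclic quotient (helper79)

Elementary properties of `cycIdx K₁ σ n` for `IsCyc K K₁ n σ`:
`h79c_cycIdx_lt`, `h79c_cycIdx_mem`, `h79c_cycIdx_unique`, `h79c_pow_mem` (`σ ^ n ∈ G_{K₁}`),
`h79c_cycIdx_mul` (additivity modulo `n`), `h79c_cycIdx_mul_right` (right invariance under
`G_{K₁}`), `h79c_cycIdx_tower` (compatibility in a tower).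
-/

set_option autoImplicit false

open scoped Classical

noncomputable section

namespace Fermat.Agent.PT.Loc

variable {q : ℕ} [Fact q.Prime] {K K₁ : LF q} {n : ℕ} {σ : Gq q}

theorem h79c_cycIdx_spec (hc : IsCyc K K₁ n σ) {g : Gq q} (hg : g ∈ GK K) :
    cycIdx K₁ σ n g < n ∧ (σ ^ cycIdx K₁ σ n g)⁻¹ * g ∈ GK K₁ := by
  have h := hc.gen g hg
  unfold cycIdx
  rw [dif_pos h]
  exact Nat.find_spec h

theorem h79c_cycIdx_lt (hc : IsCyc K K₁ n σ) {g : Gq q} (hg : g ∈ GK K) :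
    cycIdx K₁ σ n g < n := (h79c_cycIdx_spec hc hg).1

theorem h79c_cycIdx_mem (hc : IsCyc K K₁ n σ) {g : Gq q} (hg : g ∈ GK K) :
    (σ ^ cycIdx K₁ σ n g)⁻¹ * g ∈ GK K₁ := (h79c_cycIdx_spec hc hg).2

theorem h79c_GK_le (hc : IsCyc K K₁ n σ) : GK K₁ ≤ GK K :=
  IntermediateField.fixingSubgroup_antitone hc.le

/-- two exponents `< n` of the same coset coincide. -/
theorem h79c_eq_of_mem (hc : IsCyc K K₁ n σ) {g : Gq q} {i j : ℕ} (hi : i < n) (hj : j < n)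
    (h1 : (σ ^ i)⁻¹ * g ∈ GK K₁) (h2 : (σ ^ j)⁻¹ * g ∈ GK K₁) : i = j := by
  wlog hij : i ≤ j generalizing i j
  · exact (this hj hi h2 h1 (le_of_not_ge hij)).symm
  by_contra hne
  have hlt : i < j := lt_of_le_of_ne hij hne
  have h3 : σ ^ (j - i) ∈ GK K₁ := by
    have h4 : σ ^ (j - i) = ((σ ^ j)⁻¹ * g * ((σ ^ i)⁻¹ * g)⁻¹)⁻¹ := by
      have : σ ^ j = σ ^ (j - i) * σ ^ i := by rw [← pow_add, Nat.sub_add_cancel hij]
      rw [this]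
      group
    rw [h4]
    exact (GK K₁).inv_mem ((GK K₁).mul_mem h2 ((GK K₁).inv_mem h1))
  exact hc.ord (j - i) (Nat.sub_pos_of_lt hlt) (lt_of_le_of_lt (Nat.sub_le j i) hj) h3

theorem h79c_cycIdx_unique (hc : IsCyc K K₁ n σ) {g : Gq q} (hg : g ∈ GK K) {i : ℕ}
    (hi : i < n) (h : (σ ^ i)⁻¹ * g ∈ GK K₁) : cycIdx K₁ σ n g = i :=
  h79c_eq_of_mem hc (h79c_cycIdx_lt hc hg) hi (h79c_cycIdx_mem hc hg) h

/-- `σ ^ n` lies in `G_{K₁}`. -/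
theorem h79c_pow_mem (hc : IsCyc K K₁ n σ) : σ ^ n ∈ GK K₁ := by
  have hσn : σ ^ n ∈ GK K := (GK K).pow_mem hc.mem n
  obtain ⟨i, hi, h⟩ := hc.gen (σ ^ n) hσn
  have h1 : (σ ^ i)⁻¹ * σ ^ n = σ ^ (n - i) := by
    have : σ ^ n = σ ^ i * σ ^ (n - i) := by rw [← pow_add, Nat.add_sub_cancel' hi.le]
    rw [this]
    group
  rw [h1] at h
  rcases Nat.eq_zero_or_pos i with h0 | hpos
  · subst h0
    simpa using h
  · exact absurd h (hc.ord (n - i) (Nat.sub_pos_of_lt hi) (Nat.sub_lt hc.pos hpos))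

theorem h79c_pow_mul_mem (hc : IsCyc K K₁ n σ) (k : ℕ) : σ ^ (n * k) ∈ GK K₁ := by
  rw [pow_mul]
  exact (GK K₁).pow_mem (h79c_pow_mem hc) k

/-- `G_{K₁}` is normalised by `σ`. -/
theorem h79c_conj_mem (hc : IsCyc K K₁ n σ) {g s : Gq q} (hg : g ∈ GK K) (hs : s ∈ GK K₁) :
    g⁻¹ * s * g ∈ GK K₁ := by
  have := hc.normal g⁻¹ ((GK K).inv_mem hg) s hs
  simpa using this

/-- membership of `(σ ^ i)⁻¹ * g` only depends on `i` modulo `n`. -/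
theorem h79c_mem_of_mod (hc : IsCyc K K₁ n σ) {g : Gq q} {i : ℕ}
    (h : (σ ^ i)⁻¹ * g ∈ GK K₁) : (σ ^ (i % n))⁻¹ * g ∈ GK K₁ := by
  have h1 : σ ^ i = σ ^ (i % n) * σ ^ (n * (i / n)) := by
    rw [← pow_add, Nat.mod_add_div]
  have h2 : (σ ^ (i % n))⁻¹ * g = σ ^ (n * (i / n)) * ((σ ^ i)⁻¹ * g) := by
    rw [h1]
    group
  rw [h2]
  exact (GK K₁).mul_mem (h79c_pow_mul_mem hc _) h

theorem h79c_cycIdx_eq_mod (hc : IsCyc K K₁ n σ) {g : Gq q} (hg : g ∈ GK K) {i : ℕ}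
    (h : (σ ^ i)⁻¹ * g ∈ GK K₁) : cycIdx K₁ σ n g = i % n :=
  h79c_cycIdx_unique hc hg (Nat.mod_lt _ hc.pos) (h79c_mem_of_mod hc h)

/-- additivity of the index modulo `n`. -/
theorem h79c_cycIdx_mul (hc : IsCyc K K₁ n σ) {g h : Gq q} (hg : g ∈ GK K) (hh : h ∈ GK K) :
    cycIdx K₁ σ n (g * h) = (cycIdx K₁ σ n g + cycIdx K₁ σ n h) % n := by
  refine h79c_cycIdx_eq_mod hc ((GK K).mul_mem hg hh) ?_
  set i := cycIdx K₁ σ n g
  set j := cycIdx K₁ σ n h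
  have hi : (σ ^ i)⁻¹ * g ∈ GK K₁ := h79c_cycIdx_mem hc hg
  have hj : (σ ^ j)⁻¹ * h ∈ GK K₁ := h79c_cycIdx_mem hc hh
  have hσj : σ ^ j ∈ GK K := (GK K).pow_mem hc.mem j
  have h1 : (σ ^ (i + j))⁻¹ * (g * h)
      = ((σ ^ j)⁻¹ * ((σ ^ i)⁻¹ * g) * σ ^ j) * ((σ ^ j)⁻¹ * h) := by
    rw [pow_add]
    group
  rw [h1]
  exact (GK K₁).mul_mem (h79c_conj_mem hc hσj hi) hj

/-- the index is right invariant under `G_{K₁}`. -/
theorem h79c_cycIdx_mul_right (hc : IsCyc K K₁ n σ) {g s : Gq q} (hg : g ∈ GK K)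
    (hs : s ∈ GK K₁) : cycIdx K₁ σ n (g * s) = cycIdx K₁ σ n g := by
  refine h79c_cycIdx_unique hc ((GK K).mul_mem hg (h79c_GK_le hc hs)) (h79c_cycIdx_lt hc hg) ?_
  rw [← mul_assoc]
  exact (GK K₁).mul_mem (h79c_cycIdx_mem hc hg) hs

/-- the index of an element of `G_{K₁}` is `0`. -/
theorem h79c_cycIdx_of_mem (hc : IsCyc K K₁ n σ) {s : Gq q} (hs : s ∈ GK K₁) :
    cycIdx K₁ σ n s = 0 :=
  h79c_cycIdx_unique hc (h79c_GK_le hc hs) hc.pos (by simpa using hs)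

/-- the index of `σ ^ i`. -/
theorem h79c_cycIdx_pow (hc : IsCyc K K₁ n σ) (i : ℕ) : cycIdx K₁ σ n (σ ^ i) = i % n :=
  h79c_cycIdx_eq_mod hc ((GK K).pow_mem hc.mem i) (by simp)

/-- compatibility in a tower `K ≤ K₁ ≤ K₂` with the same generator. -/
theorem h79c_cycIdx_tower {K₂ : LF q} {m : ℕ} (hc : IsCyc K K₁ n σ)
    (hc₂ : IsCyc K K₂ (n * m) σ) (hle : K₁ ≤ K₂) {g : Gq q} (hg : g ∈ GK K) :
    cycIdx K₁ σ n g = cycIdx K₂ σ (n * m) g % n :=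
  h79c_cycIdx_eq_mod hc hg
    (IntermediateField.fixingSubgroup_antitone hle (h79c_cycIdx_mem hc₂ hg))

end Fermat.Agent.PT.Loc
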