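import Mathlib
import Fermat.Agent.PT.Loc.Iface

/-!
# W3-PT / PT-LOC (helper65): calculus of `cycIdx` for a cyclic extension

For `IsCyc K K₁ n σ`: `cycIdx K₁ σ n` is the isomorphism `G_K / G_{K₁} ≃ ℤ/n` (as a function with
values in `{0, …, n-1}`), additive modulo `n`, and invariant under right translation by `G_{K₁}`.
-/

set_option autoImplicit false

open scoped Classical

noncomputable section

namespace Fermat.Agent.PT.Loc

variable {q : ℕ} [Fact q.Prime] {K K₁ : LF q} {n : ℕ} {σ : Gq q}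

theorem h65_GK_le (hc : IsCyc K K₁ n σ) : GK K₁ ≤ GK K :=
  IntermediateField.fixingSubgroup_antitone hc.le

theorem h65_pow_mem_GK (hc : IsCyc K K₁ n σ) (i : ℕ) : σ ^ i ∈ GK K :=
  Subgroup.pow_mem _ hc.mem i

/-- `σ ^ n ∈ G_{K₁}`. -/
theorem h65_pow_n_mem (hc : IsCyc K K₁ n σ) : σ ^ n ∈ GK K₁ := by
  obtain ⟨i, hi, hmem⟩ := hc.gen (σ ^ n) (h65_pow_mem_GK hc n)
  have h1 : (σ ^ i)⁻¹ * σ ^ n = σ ^ (n - i) := by
    rw [inv_mul_eq_iff_eq_mul, ← pow_add]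
    congr 1
    omega
  rw [h1] at hmem
  by_cases hi0 : i = 0
  · subst hi0
    simpa using hmem
  · exact absurd hmem (hc.ord (n - i) (by omega) (by omega))

/-- `(σ ^ n) ^ d ∈ G_{K₁}`. -/
theorem h65_pow_n_mul_mem (hc : IsCyc K K₁ n σ) (d : ℕ) : σ ^ (n * d) ∈ GK K₁ := by
  rw [pow_mul]
  exact Subgroup.pow_mem _ (h65_pow_n_mem hc) d

theorem h65_idx_spec (hc : IsCyc K K₁ n σ) {g : Gq q} (hg : g ∈ GK K) :
    cycIdx K₁ σ n g < n ∧ (σ ^ cycIdx K₁ σ n g)⁻¹ * g ∈ GK K₁ := by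
  have h := hc.gen g hg
  unfold cycIdx
  rw [dif_pos h]
  exact Nat.find_spec h

theorem h65_idx_lt (hc : IsCyc K K₁ n σ) {g : Gq q} (hg : g ∈ GK K) :
    cycIdx K₁ σ n g < n := (h65_idx_spec hc hg).1

theorem h65_idx_mem (hc : IsCyc K K₁ n σ) {g : Gq q} (hg : g ∈ GK K) :
    (σ ^ cycIdx K₁ σ n g)⁻¹ * g ∈ GK K₁ := (h65_idx_spec hc hg).2

/-- uniqueness of the index. -/
theorem h65_idx_unique_aux (hc : IsCyc K K₁ n σ) {g : Gq q} {a b : ℕ} (hab : a < b) (hb : b < n)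
    (hga : (σ ^ a)⁻¹ * g ∈ GK K₁) (hgb : (σ ^ b)⁻¹ * g ∈ GK K₁) : False := by
  have h1 := (GK K₁).mul_mem hga ((GK K₁).inv_mem hgb)
  have h2 : (σ ^ a)⁻¹ * g * ((σ ^ b)⁻¹ * g)⁻¹ = σ ^ (b - a) := by
    have hb' : σ ^ b = σ ^ a * σ ^ (b - a) := by
      rw [← pow_add]
      congr 1
      omega
    rw [hb']
    group
  rw [h2] at h1
  exact hc.ord (b - a) (by omega) (by omega) h1

theorem h65_idx_unique (hc : IsCyc K K₁ n σ) {g : Gq q} {a b : ℕ} (ha : a < n) (hb : b < n)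
    (hga : (σ ^ a)⁻¹ * g ∈ GK K₁) (hgb : (σ ^ b)⁻¹ * g ∈ GK K₁) : a = b := by
  rcases Nat.lt_trichotomy a b with h | h | h
  · exact (h65_idx_unique_aux hc h hb hga hgb).elim
  · exact h
  · exact (h65_idx_unique_aux hc h ha hgb hga).elim

/-- characterisation of the index. -/
theorem h65_idx_eq (hc : IsCyc K K₁ n σ) {g : Gq q} (hg : g ∈ GK K) {a : ℕ} (ha : a < n)
    (hga : (σ ^ a)⁻¹ * g ∈ GK K₁) : cycIdx K₁ σ n g = a :=
  h65_idx_unique hc (h65_idx_lt hc hg) ha (h65_idx_mem hc hg) hga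

/-- the index of an element of `G_{K₁}` is `0`. -/
theorem h65_idx_of_mem (hc : IsCyc K K₁ n σ) {s : Gq q} (hs : s ∈ GK K₁) :
    cycIdx K₁ σ n s = 0 :=
  h65_idx_eq hc (h65_GK_le hc hs) hc.pos (by simpa using hs)

/-- membership in the coset `σ ^ m G_{K₁}` for arbitrary `m`. -/
theorem h65_idx_eq_mod (hc : IsCyc K K₁ n σ) {g : Gq q} (hg : g ∈ GK K) {m : ℕ}
    (hgm : (σ ^ m)⁻¹ * g ∈ GK K₁) : cycIdx K₁ σ n g = m % n := by
  refine h65_idx_eq hc hg (Nat.mod_lt _ hc.pos) ?_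
  have h1 : σ ^ m = σ ^ (m % n) * σ ^ (n * (m / n)) := by
    rw [← pow_add, Nat.mod_add_div]
  have h2 : (σ ^ (m % n))⁻¹ * g = σ ^ (n * (m / n)) * ((σ ^ m)⁻¹ * g) := by
    rw [h1]
    group
  rw [h2]
  exact (GK K₁).mul_mem (h65_pow_n_mul_mem hc _) hgm

/-- the index is additive modulo `n`. -/
theorem h65_idx_mul (hc : IsCyc K K₁ n σ) {g h : Gq q} (hg : g ∈ GK K) (hh : h ∈ GK K) :
    cycIdx K₁ σ n (g * h) = (cycIdx K₁ σ n g + cycIdx K₁ σ n h) % n := by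
  refine h65_idx_eq_mod hc ((GK K).mul_mem hg hh) ?_
  set i := cycIdx K₁ σ n g
  set j := cycIdx K₁ σ n h
  have hs := h65_idx_mem hc hg
  have ht := h65_idx_mem hc hh
  have hn := hc.normal ((σ ^ j)⁻¹) ((GK K).inv_mem (h65_pow_mem_GK hc j)) _ hs
  have h1 : (σ ^ (i + j))⁻¹ * (g * h) =
      ((σ ^ j)⁻¹ * ((σ ^ i)⁻¹ * g) * ((σ ^ j)⁻¹)⁻¹) * ((σ ^ j)⁻¹ * h) := by
    rw [pow_add]
    group
  rw [h1]
  exact (GK K₁).mul_mem hn ht

/-- the index is invariant under right translation by `G_{K₁}`. -/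
theorem h65_idx_mul_right (hc : IsCyc K K₁ n σ) {g s : Gq q} (hg : g ∈ GK K)
    (hs : s ∈ GK K₁) : cycIdx K₁ σ n (g * s) = cycIdx K₁ σ n g := by
  rw [h65_idx_mul hc hg (h65_GK_le hc hs), h65_idx_of_mem hc hs, add_zero,
    Nat.mod_eq_of_lt (h65_idx_lt hc hg)]

/-- the carry relation: `idx g + idx h = idx (g h) + n · [n ≤ idx g + idx h]`. -/
theorem h65_idx_add (hc : IsCyc K K₁ n σ) {g h : Gq q} (hg : g ∈ GK K) (hh : h ∈ GK K) :
    cycIdx K₁ σ n g + cycIdx K₁ σ n h =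
      cycIdx K₁ σ n (g * h) + if n ≤ cycIdx K₁ σ n g + cycIdx K₁ σ n h then n else 0 := by
  rw [h65_idx_mul hc hg hh]
  have hi := h65_idx_lt hc hg
  have hj := h65_idx_lt hc hh
  split_ifs with hle
  · have : (cycIdx K₁ σ n g + cycIdx K₁ σ n h) % n = cycIdx K₁ σ n g + cycIdx K₁ σ n h - n := by
      rw [Nat.mod_eq_sub_mod hle, Nat.mod_eq_of_lt (by omega)]
    omega
  · rw [Nat.mod_eq_of_lt (by omega)]
    rfl

end Fermat.Agent.PT.Loc

end
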