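import Mathlib
import Fermat.Agent.PT.Loc.MC.H65Idx

/-!
# W3-PT / PT-LOC leaf LOC-MC-CARRY (helper65)

`h65_mcCarry : MCCarry` — the carry cocycle of a cyclic extension is a continuous `2`-cocycle
on `G_K`.
-/

set_option autoImplicit false

open scoped Classical

noncomputable section

namespace Fermat.Agent.PT.Loc

variable {q : ℕ} [Fact q.Prime] {K K₁ : LF q} {n : ℕ} {σ : Gq q}

/-- an element of `G_K` fixes a unit lying in `K`. -/
theorem h65_smul_unit_of_mem {K : LF q} {g : Gq q} (hg : g ∈ GK K) {b : (Om q)ˣ}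
    (hb : (b : Om q) ∈ K) : g • b = b := by
  apply Units.ext
  rw [AlgEquiv.smul_units_def, Units.coe_map]
  exact (IntermediateField.mem_fixingSubgroup_iff K g).mp hg _ hb

theorem h65_carry_apply (K₁ : LF q) (σ : Gq q) (n : ℕ) (b : (Om q)ˣ) (g h : Gq q) :
    carry K₁ σ n b (g, h) = if n ≤ cycIdx K₁ σ n g + cycIdx K₁ σ n h then b else 1 := rfl

/-- the carry cocycle as a power of `b`. -/
theorem h65_carry_eq_pow (K₁ : LF q) (σ : Gq q) (n : ℕ) (b : (Om q)ˣ) (g h : Gq q) :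
    carry K₁ σ n b (g, h) = b ^ (if n ≤ cycIdx K₁ σ n g + cycIdx K₁ σ n h then 1 else 0) := by
  rw [h65_carry_apply]
  split_ifs <;> simp

/-- `G_K` acts trivially on the values of the carry cocycle. -/
theorem h65_smul_carry {b : (Om q)ˣ} (hb : (b : Om q) ∈ K)
    {g : Gq q} (hg : g ∈ GK K) (y : Gq q × Gq q) :
    g • carry K₁ σ n b y = carry K₁ σ n b y := by
  unfold carry
  split_ifs
  · exact h65_smul_unit_of_mem hg hb
  · exact smul_one g

/-- **LOC-MC-CARRY**, cocycle part. -/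
theorem h65_carry_mcoc2 (hc : IsCyc K K₁ n σ) {b : (Om q)ˣ} (hb : (b : Om q) ∈ K) :
    MCoc2 K (carry K₁ σ n b) := by
  intro g hg h hh j hj
  rw [h65_smul_carry hb hg]
  have hgh := (GK K).mul_mem hg hh
  have hhj := (GK K).mul_mem hh hj
  have e1 := h65_idx_add hc hg hh
  have e2 := h65_idx_add hc hh hj
  have e3 := h65_idx_add hc hgh hj
  have e4 := h65_idx_add hc hg hhj
  have hassoc : cycIdx K₁ σ n (g * h * j) = cycIdx K₁ σ n (g * (h * j)) := by rw [mul_assoc]
  rw [hassoc] at e3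
  have hi := h65_idx_lt hc hg
  have hj' := h65_idx_lt hc hh
  have hk := h65_idx_lt hc hj
  have hgh' := h65_idx_lt hc hgh
  have hhj' := h65_idx_lt hc hhj
  have hn := hc.pos
  simp only [h65_carry_eq_pow, ← pow_add]
  congr 1
  split_ifs at e1 e2 e3 e4 ⊢ <;> omega

/-- **LOC-MC-CARRY**, continuity part. -/
theorem h65_carry_cont2 (hc : IsCyc K K₁ n σ) (b : (Om q)ˣ) :
    Cont2 K (carry K₁ σ n b) := by
  refine ⟨K₁, hc.fin, hc.le, ?_⟩
  intro g hg g' hg' s hs s' hs'
  rw [h65_carry_apply, h65_carry_apply, h65_idx_mul_right hc hg hs,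
    h65_idx_mul_right hc hg' hs']

/-- **LOC-MC-CARRY**. -/
theorem h65_mcCarry : MCCarry := by
  intro q _ K K₁ _ n σ b hc hb
  exact ⟨h65_carry_mcoc2 hc hb, h65_carry_cont2 hc b⟩

end Fermat.Agent.PT.Loc

end
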