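import Mathlib
import Fermat.Agent.PT.Loc.MC.H65Carry

/-!
# W3-PT / PT-LOC leaf LOC-MC-KUM (helper65)

`h65_mcKum : MCKum` — the cup product of a Kummer character with the character of a cyclic
extension of degree `p` is (the class of) the inverse of a carry cocycle:
`ζ ^ (κ_B ∪ idx) = carry (B ^ p)⁻¹ · ∂ (g ↦ B ^ idx g)`.
-/

set_option autoImplicit false

open scoped Classical

noncomputable section

namespace Fermat.Agent.PT.Loc

variable {q : ℕ} [Fact q.Prime] {p : ℕ} [Fact p.Prime]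

/-- the defining property of the Kummer character, on `G_K` (`ζ ∈ K` primitive, `B ^ p ∈ K`,
`B ≠ 0`). -/
theorem h65_kum_spec {K : LF q} {ζ B : Om q} (hζ : IsPrimitiveRoot ζ p) (hB0 : B ≠ 0)
    (hB : B ^ p ∈ K) {g : Gq q} (hg : g ∈ GK K) :
    g B = ζ ^ (kum p ζ B g).val * B := by
  have hp : 0 < p := (Fact.out : p.Prime).pos
  have : NeZero p := ⟨hp.ne'⟩
  have hfix : g (B ^ p) = B ^ p := (IntermediateField.mem_fixingSubgroup_iff K g).mp hg _ hB
  have h1 : (g B / B) ^ p = 1 := by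
    rw [div_pow, ← map_pow, hfix, div_self (pow_ne_zero _ hB0)]
  obtain ⟨i, hi, hi'⟩ := hζ.eq_pow_of_pow_eq_one h1
  have hex : ∃ k : ZMod p, g B = ζ ^ k.val * B := by
    refine ⟨(i : ZMod p), ?_⟩
    rw [ZMod.val_natCast, Nat.mod_eq_of_lt hi, hi', div_mul_cancel₀ _ hB0]
  unfold kum
  rw [dif_pos hex]
  exact hex.choose_spec

/-- the same, for units. -/
theorem h65_kum_spec_units {K : LF q} {ζ B : (Om q)ˣ} (hζ : IsPrimitiveRoot (ζ : Om q) p)
    (hB : (B : Om q) ^ p ∈ K) {g : Gq q} (hg : g ∈ GK K) :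
    g • B = ζ ^ (kum p (ζ : Om q) (B : Om q) g).val * B := by
  apply Units.ext
  rw [AlgEquiv.smul_units_def, Units.coe_map, Units.val_mul, Units.val_pow_eq_pow_val]
  exact h65_kum_spec hζ B.ne_zero hB hg

/-- **LOC-MC-KUM**. -/
theorem h65_mcKum : MCKum := by
  intro q _ p _ K K₁ _ σ ζ B hζK hζ hc hB
  have hp : 0 < p := (Fact.out : p.Prime).pos
  have : NeZero p := ⟨hp.ne'⟩
  have hζu : IsPrimitiveRoot ζ p := IsPrimitiveRoot.coe_units_iff.mp hζ
  have hζp : ζ ^ p = 1 := hζu.pow_eq_one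
  refine ⟨fun g => B ^ cycIdx K₁ σ p g, ⟨K₁, hc.fin, hc.le, ?_⟩, ?_⟩
  · intro g hg s hs
    show B ^ cycIdx K₁ σ p (g * s) = B ^ cycIdx K₁ σ p g
    rw [h65_idx_mul_right hc hg hs]
  · intro g hg h hh
    have hadd := h65_idx_add hc hg hh
    have hj := h65_idx_lt hc hh
    set i := cycIdx K₁ σ p g with hi_def
    set j := cycIdx K₁ σ p h with hj_def
    set m := cycIdx K₁ σ p (g * h) with hm_def
    set k := kum p (ζ : Om q) (B : Om q) g with hk_def
    -- the left hand side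
    have hL : zpw ζ (acup (kum p (ζ : Om q) (B : Om q)) (fun g => (cycIdx K₁ σ p g : ZMod p)))
        (g, h) = ζ ^ (k.val * j) := by
      show ζ ^ (k * (j : ZMod p)).val = ζ ^ (k.val * j)
      rw [ZMod.val_mul, ZMod.val_natCast, Nat.mod_eq_of_lt hj]
      conv_rhs => rw [← Nat.mod_add_div (k.val * j) p]
      rw [pow_add, pow_mul, hζp, one_pow, mul_one]
    -- the coboundary
    have hgB : g • B = ζ ^ k.val * B := h65_kum_spec_units hζ hB hg
    have hR : mcob (fun g => B ^ cycIdx K₁ σ p g) (g, h) =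
        ζ ^ (k.val * j) * carry K₁ σ p (B ^ p) (g, h) := by
      have hcarry : carry K₁ σ p (B ^ p) (g, h) = (B ^ p) ^ (if p ≤ i + j then 1 else 0) :=
        h65_carry_eq_pow K₁ σ p (B ^ p) g h
      have e : B ^ j * B ^ i = B ^ (p * if p ≤ i + j then 1 else 0) * B ^ m := by
        rw [← pow_add, ← pow_add]
        congr 1
        split_ifs at hadd ⊢ <;> omega
      show g • B ^ j / B ^ m * B ^ i = _
      rw [hcarry, smul_pow', hgB, mul_pow, ← pow_mul, ← pow_mul, div_mul_eq_mul_div, mul_assoc, e,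
        ← mul_assoc, mul_div_cancel_right]
    rw [hL, hR]
    show ζ ^ (k.val * j) = (carry K₁ σ p (B ^ p) (g, h))⁻¹ *
      (ζ ^ (k.val * j) * carry K₁ σ p (B ^ p) (g, h))
    rw [mul_comm (ζ ^ (k.val * j)), inv_mul_cancel_left]

end Fermat.Agent.PT.Loc

end
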