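import Mathlib
import Fermat.Agent.PT.Loc.Iface
import Fermat.Agent.PT.Loc.MC.H79Cyc

/-!
# W3-PT / PT-LOC, leaf MC-CARRY-POW (helper79)

`h79c_mcCarryPow : MCCarryPow`: for a tower `K ≤ K₁ ≤ K₂`, cyclic of degrees `n`, `n m` with the
same generator `σ`, the carry cocycles of `(K₂, b^m)` and `(K₁, b)` are cohomologous on `G_K`,
by the coboundary of `g ↦ b ^ (idx_{nm} g / n)`.
-/

set_option autoImplicit false

open scoped Classical

noncomputable section

namespace Fermat.Agent.PT.Loc

variable {q : ℕ} [Fact q.Prime]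

/-- an element of `(Om q)ˣ` lying in `K` is fixed by `G_K`. -/
theorem h79c_smul_eq_of_mem {K : LF q} {b : (Om q)ˣ} (hb : (b : Om q) ∈ K) {g : Gq q}
    (hg : g ∈ GK K) : g • b = b := by
  apply Units.ext
  exact hg ⟨(b : Om q), hb⟩

/-- the arithmetic of carries: for `i, j < n m`,
`i / n + j / n + [n ≤ i % n + j % n] = ((i + j) % (n m)) / n + m * [n m ≤ i + j]`. -/
theorem h79c_carry_arith {n m i j : ℕ} (hn : 0 < n) (hi : i < n * m) (hj : j < n * m) :
    i / n + j / n + (if n ≤ i % n + j % n then 1 else 0)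
      = (i + j) % (n * m) / n + (if n * m ≤ i + j then m else 0) := by
  have hi' := Nat.div_add_mod i n
  have hj' := Nat.div_add_mod j n
  have hi0 : i % n < n := Nat.mod_lt _ hn
  have hj0 : j % n < n := Nat.mod_lt _ hn
  -- `(i + j) / n`
  have hdiv : (i + j) / n = i / n + j / n + (if n ≤ i % n + j % n then 1 else 0) := by
    split_ifs with h
    · have e : i + j = (i % n + j % n - n) + n * (i / n + j / n + 1) := by
        have : n * (i / n + j / n + 1) = n * (i / n) + n * (j / n) + n := by ring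
        omega
      rw [e, Nat.add_mul_div_left _ _ hn, Nat.div_eq_of_lt (by omega)]
      omega
    · have e : i + j = (i % n + j % n) + n * (i / n + j / n) := by
        have : n * (i / n + j / n) = n * (i / n) + n * (j / n) := by ring
        omega
      rw [e, Nat.add_mul_div_left _ _ hn, Nat.div_eq_of_lt (by omega)]
      omega
  rw [← hdiv]
  split_ifs with h1
  · -- `n m ≤ i + j`
    have hlt : i + j - n * m < n * m := by omega
    have e : (i + j) % (n * m) = i + j - n * m := by
      rw [Nat.mod_eq_sub_mod h1, Nat.mod_eq_of_lt hlt]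
    have e2 : (i + j - n * m) / n = (i + j) / n - m := Nat.sub_mul_div (i + j) n m
    have hm : m ≤ (i + j) / n := by
      rw [Nat.le_div_iff_mul_le hn, mul_comm]
      exact h1
    rw [e, e2]
    omega
  · have e : (i + j) % (n * m) = i + j := Nat.mod_eq_of_lt (by omega)
    rw [e]
    omega

theorem h79c_carry_pow_identity {G : Type*} [CommGroup G] (b : G) {n m i j : ℕ} (hn : 0 < n)
    (hi : i < n * m) (hj : j < n * m) :
    (if n * m ≤ i + j then b ^ m else 1)
      = (if n ≤ i % n + j % n then b else 1)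
        * (b ^ (j / n) / b ^ ((i + j) % (n * m) / n) * b ^ (i / n)) := by
  have key := h79c_carry_arith (n := n) (m := m) hn hi hj
  have lhs : (if n * m ≤ i + j then b ^ m else 1) = b ^ (if n * m ≤ i + j then m else 0) := by
    split_ifs <;> simp
  have rhs : (if n ≤ i % n + j % n then b else 1)
      = b ^ (if n ≤ i % n + j % n then 1 else 0) := by
    split_ifs <;> simp
  rw [lhs, rhs, div_mul_eq_mul_div, mul_div_assoc', eq_div_iff_mul_eq',
    ← pow_add, ← pow_add, ← pow_add]
  congr 1
  omega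

/-- **MC-CARRY-POW.** -/
theorem h79c_mcCarryPow : MCCarryPow := by
  intro q _ K K₁ K₂ _ n m σ b hc hc₂ hle hb
  have hn : 0 < n := hc.pos
  refine ⟨fun g => b ^ (cycIdx K₂ σ (n * m) g / n), ?_, ?_⟩
  · -- continuity
    refine ⟨K₂, hc₂.fin, hc₂.le, fun g hg s hs => ?_⟩
    simp only
    rw [h79c_cycIdx_mul_right hc₂ hg hs]
  · intro g hg h hh
    have hi := h79c_cycIdx_lt hc₂ hg
    have hj := h79c_cycIdx_lt hc₂ hh
    have e1 : cycIdx K₁ σ n g = cycIdx K₂ σ (n * m) g % n := h79c_cycIdx_tower hc hc₂ hle hg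
    have e2 : cycIdx K₁ σ n h = cycIdx K₂ σ (n * m) h % n := h79c_cycIdx_tower hc hc₂ hle hh
    have e3 : cycIdx K₂ σ (n * m) (g * h)
        = (cycIdx K₂ σ (n * m) g + cycIdx K₂ σ (n * m) h) % (n * m) :=
      h79c_cycIdx_mul hc₂ hg hh
    have hsm : g • (b ^ (cycIdx K₂ σ (n * m) h / n)) = b ^ (cycIdx K₂ σ (n * m) h / n) := by
      rw [smul_pow', h79c_smul_eq_of_mem hb hg]
    simp only [carry, mcob]
    rw [e1, e2, e3, hsm]
    exact h79c_carry_pow_identity b hn hi hj

end Fermat.Agent.PT.Loc
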