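import Mathlib
import Fermat.Agent.PT.Loc.Iface

/-!
# W3-PT / PT-LOC, leaf MC-MU (helper79)

`h79m_mcMu_of : MCH90 → MCMu`: a continuous `μ_p`-valued `2`-cochain `ζ ^ c` of `G_K` which is a
continuous coboundary in `(Om q)ˣ` is a continuous coboundary in `ZMod p`.

Proof: `ζ ^ c = ∂x`; then `x ^ p` is a continuous `1`-cocycle, hence `x(g) ^ p = g a / a` by
Hilbert 90; choose `α ^ p = a`; `x'(g) = x(g) α / g α` has the same coboundary and
`x'(g) ^ p = 1`, so `x' = ζ ^ f` and `c = ∂f`.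
-/

set_option autoImplicit false

open scoped Classical

noncomputable section

namespace Fermat.Agent.PT.Loc

variable {q : ℕ} [Fact q.Prime] {p : ℕ} [Fact p.Prime]

section Roots

variable {M : Type*} [CommGroup M] {ζ : M}

theorem h79m_pow_val_injective (hζ : IsPrimitiveRoot ζ p) {a b : ZMod p}
    (h : ζ ^ a.val = ζ ^ b.val) : a = b := by
  have hp : p.Prime := Fact.out
  haveI : NeZero p := ⟨hp.ne_zero⟩
  exact ZMod.val_injective p (hζ.pow_inj (ZMod.val_lt a) (ZMod.val_lt b) h)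

theorem h79m_pow_val_add (hζ : IsPrimitiveRoot ζ p) (a b : ZMod p) :
    ζ ^ (a + b).val = ζ ^ a.val * ζ ^ b.val := by
  have hp : p.Prime := Fact.out
  haveI : NeZero p := ⟨hp.ne_zero⟩
  rw [← pow_add, ZMod.val_add]
  conv_rhs => rw [← Nat.mod_add_div (a.val + b.val) p]
  rw [pow_add (a := ζ) (m := (a.val + b.val) % p), pow_mul, hζ.pow_eq_one, one_pow, mul_one]

theorem h79m_pow_val_natCast (hζ : IsPrimitiveRoot ζ p) (k : ℕ) :
    ζ ^ ((k : ZMod p)).val = ζ ^ k := by
  rw [ZMod.val_natCast]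
  conv_rhs => rw [← Nat.mod_add_div k p]
  rw [pow_add, pow_mul, hζ.pow_eq_one, one_pow, mul_one]

/-- the exponent of a `p`-th root of unity. -/
def h79m_expo (p : ℕ) (ζ u : M) : ZMod p :=
  if h : ∃ k : ZMod p, u = ζ ^ k.val then h.choose else 0

omit [Fact p.Prime] in
theorem h79m_expo_spec {u : M} (h : ∃ k : ZMod p, u = ζ ^ k.val) :
    u = ζ ^ (h79m_expo p ζ u).val := by
  unfold h79m_expo
  rw [dif_pos h]
  exact h.choose_spec

end Roots

/-- a `p`-th root of unity in `(Om q)ˣ` is a power of `ζ`. -/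
theorem h79m_exists_expo {ζ u : (Om q)ˣ} (hζ : IsPrimitiveRoot ζ p) (hu : u ^ p = 1) :
    ∃ k : ZMod p, u = ζ ^ k.val := by
  have hp : p.Prime := Fact.out
  haveI : NeZero p := ⟨hp.ne_zero⟩
  have hζ' : IsPrimitiveRoot (ζ : Om q) p := IsPrimitiveRoot.coe_units_iff.mpr hζ
  have hu' : (u : Om q) ^ p = 1 := by
    rw [← Units.val_pow_eq_pow_val, hu, Units.val_one]
  obtain ⟨i, -, hi⟩ := hζ'.eq_pow_of_pow_eq_one hu'
  refine ⟨(i : ZMod p), ?_⟩
  rw [h79m_pow_val_natCast hζ]
  apply Units.ext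
  rw [Units.val_pow_eq_pow_val, hi]

theorem h79m_smul_eq_of_mem {K : LF q} {b : (Om q)ˣ} (hb : (b : Om q) ∈ K) {g : Gq q}
    (hg : g ∈ GK K) : g • b = b := by
  apply Units.ext
  exact hg ⟨(b : Om q), hb⟩

/-- the coboundary of a product. -/
theorem h79m_mcob_mul (x y : Gq q → (Om q)ˣ) (g h : Gq q) :
    mcob (fun g => x g * y g) (g, h) = mcob x (g, h) * mcob y (g, h) := by
  simp only [mcob]
  rw [smul_mul', mul_div_mul_comm, mul_mul_mul_comm]

/-- the coboundary of a principal cochain `g ↦ α / g α` is trivial. -/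
theorem h79m_mcob_principal (α : (Om q)ˣ) (g h : Gq q) :
    mcob (fun g => α / g • α) (g, h) = 1 := by
  simp only [mcob]
  rw [smul_div', mul_smul]
  simp

/-- **MC-MU** from Hilbert 90. -/
theorem h79m_mcMu_of (h90 : MCH90) : MCMu := by
  intro q _ p _ K _ ζ hζK hζ' c _ _ hcoh
  have hp : p.Prime := Fact.out
  haveI : NeZero p := ⟨hp.ne_zero⟩
  have hζ : IsPrimitiveRoot ζ p := IsPrimitiveRoot.coe_units_iff.mp hζ'
  obtain ⟨x, ⟨F, hF, hKF, hxF⟩, hx⟩ := hcoh
  -- the coboundary of `x` on `G_K`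
  have hx' : ∀ g ∈ GK K, ∀ h ∈ GK K, mcob x (g, h) = ζ ^ (c (g, h)).val := by
    intro g hg h hh
    have := hx g hg h hh
    rw [Pi.one_apply, one_mul] at this
    exact this.symm
  -- `x ^ p` is a continuous cocycle
  have hy1 : MCoc1 K (fun g => x g ^ p) := by
    intro g hg h hh
    have h1 := congrArg (· ^ p) (hx' g hg h hh)
    simp only [mcob] at h1
    rw [← pow_mul, mul_comm _ p, pow_mul, hζ.pow_eq_one, one_pow, mul_pow, div_pow] at h1
    simp only
    rw [smul_pow']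
    rw [div_mul_eq_mul_div, div_eq_one] at h1
    exact h1.symm
  have hy2 : Cont1 K (fun g => x g ^ p) :=
    ⟨F, hF, hKF, fun g hg s hs => by simp only; rw [hxF g hg s hs]⟩
  obtain ⟨a, ha⟩ := h90 q K (fun g => x g ^ p) hy1 hy2
  -- a `p`-th root of `a`
  obtain ⟨α₀, hα₀⟩ := IsAlgClosed.exists_pow_nat_eq (a : Om q) hp.pos
  have hα₀0 : α₀ ≠ 0 := by
    rintro rfl
    rw [zero_pow hp.ne_zero] at hα₀
    exact a.ne_zero hα₀.symm
  obtain ⟨α, hαval⟩ : ∃ α : (Om q)ˣ, (α : Om q) = α₀ := ⟨Units.mk0 α₀ hα₀0, rfl⟩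
  have hαp : α ^ p = a := by
    apply Units.ext
    rw [Units.val_pow_eq_pow_val, hαval]
    exact hα₀
  -- the corrected cochain
  have hx'p : ∀ g ∈ GK K, (x g * (α / g • α)) ^ p = 1 := by
    intro g hg
    have h1 : x g ^ p = g • a / a := ha g hg
    rw [mul_pow, div_pow, h1, ← smul_pow', hαp]
    simp
  have hx'cob : ∀ g ∈ GK K, ∀ h ∈ GK K,
      mcob (fun g => x g * (α / g • α)) (g, h) = ζ ^ (c (g, h)).val := by
    intro g hg h hh
    rw [h79m_mcob_mul x (fun g => α / g • α) g h, h79m_mcob_principal, mul_one]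
    exact hx' g hg h hh
  -- the exponent
  have hspec : ∀ g ∈ GK K, x g * (α / g • α)
      = ζ ^ (h79m_expo p ζ (x g * (α / g • α))).val := fun g hg =>
    h79m_expo_spec (h79m_exists_expo hζ (hx'p g hg))
  -- continuity data for `α`
  have halg : IsIntegral ℚ_[q] α₀ := (PadicAlgCl.isAlgebraic q).isIntegral.isIntegral α₀
  haveI : FiniteDimensional ℚ_[q] (IntermediateField.adjoin ℚ_[q] {α₀}) :=
    IntermediateField.adjoin.finiteDimensional halg
  haveI := hF
  refine ⟨fun g => h79m_expo p ζ (x g * (α / g • α)), ?_, ?_⟩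
  · refine ⟨F ⊔ IntermediateField.adjoin ℚ_[q] {α₀}, inferInstance, hKF.trans le_sup_left,
      fun g hg s hs => ?_⟩
    have hs1 : s ∈ GK F := IntermediateField.fixingSubgroup_antitone le_sup_left hs
    have hsα : s • α = α := by
      apply Units.ext
      have h1 : α₀ ∈ F ⊔ IntermediateField.adjoin ℚ_[q] {α₀} :=
        (le_sup_right : IntermediateField.adjoin ℚ_[q] {α₀} ≤ _)
          (IntermediateField.mem_adjoin_simple_self ℚ_[q] α₀)
      have h2 : s α₀ = α₀ := hs ⟨α₀, h1⟩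
      change s (α : Om q) = (α : Om q)
      rw [hαval]
      exact h2
    simp only
    rw [hxF g hg s hs1, mul_smul, hsα]
  · intro g hg h hh
    have hgh : g * h ∈ GK K := (GK K).mul_mem hg hh
    have h1 := hx'cob g hg h hh
    simp only [mcob] at h1
    rw [hspec g hg, hspec h hh, hspec (g * h) hgh, smul_pow',
      h79m_smul_eq_of_mem hζK hg] at h1
    set fg := h79m_expo p ζ (x g * (α / g • α))
    set fh := h79m_expo p ζ (x h * (α / h • α))
    set fgh := h79m_expo p ζ (x (g * h) * (α / (g * h) • α))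
    rw [div_mul_eq_mul_div, div_eq_iff_eq_mul, ← h79m_pow_val_add hζ,
      ← h79m_pow_val_add hζ] at h1
    have h2 := h79m_pow_val_injective hζ h1
    simp only [Pi.zero_apply, acob, zero_add]
    change c (g, h) = fh - fgh + fg
    linear_combination -h2

end Fermat.Agent.PT.Loc
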