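import Mathlib
import Fermat.Agent.PT.Loc.Iface
import Fermat.Agent.PT.Loc.MC.H79Mu
import Fermat.Agent.PT.Loc.H81H90

/-!
# W3-PT / PT-LOC, leaf MC-MU, unconditional (helper79)
-/

set_option autoImplicit false

namespace Fermat.Agent.PT.Loc

/-- **MC-MU**, unconditional (Hilbert 90 = `h81h_mcH90`, helper81). -/
theorem h79m_mcMu : MCMu := h79m_mcMu_of h81h_mcH90

end Fermat.Agent.PT.Loc
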